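import Mathlib.CategoryTheory.Category.Basic
import Mathlib.Algebra.Group.Subgroup.Finsupp
import Mathlib.Data.Finsupp.Order
import Mathlib.GroupTheory.QuotientGroup.Defs
import Mathlib.Algebra.BigOperators.Finsupp.Basic
import Mathlib.Tactic.Abel
import Mathlib.Tactic.Linarith

/-!
# The theorem of the square on constant curves, abstract version

`𝒞` is the category of algebraically closed fields and places. A `CurveSys` is the system of
points and divisor classes of a constant curve, `P` the functor of points of an abelian variety.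
-/

set_option autoImplicit false

noncomputable section

open CategoryTheory

namespace Fermat.Agent.AVB

universe u v w

variable {𝒞 : Type w} [Category.{v} 𝒞]

/-- The degree of a divisor. -/
def deg {X : Type*} : (X →₀ ℤ) →+ ℤ := Finsupp.liftAddHom fun _ => AddMonoidHom.id ℤ

@[simp]
theorem deg_single {X : Type*} (x : X) (n : ℤ) : deg (Finsupp.single x n) = n := by
  simp [deg]

theorem deg_mapDomain {X Y : Type*} (f : X → Y) (D : X →₀ ℤ) :
    deg (D.mapDomain f) = deg D := by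
  induction D using Finsupp.induction_linear with
  | zero => simp
  | add f g hf hg => rw [Finsupp.mapDomain_add, map_add, map_add, hf, hg]
  | single a b => rw [Finsupp.mapDomain_single, deg_single, deg_single]

theorem mapDomain_nonneg {X Y : Type*} (f : X → Y) {D : X →₀ ℤ} (hD : 0 ≤ D) :
    0 ≤ D.mapDomain f := by
  classical
  rw [Finsupp.mapDomain, Finsupp.sum]
  refine Finset.sum_nonneg fun x _ => ?_
  intro y
  rw [Finsupp.single_apply]
  split_ifs
  · exact hD x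
  · exact le_rfl

theorem le_mapDomain_apply {X Y : Type*} (f : X → Y) {D : X →₀ ℤ} (hD : 0 ≤ D) (x : X) :
    D x ≤ D.mapDomain f (f x) := by
  classical
  have h1 : D = Finsupp.single x (D x) + D.erase x := (Finsupp.single_add_erase x D).symm
  have h2 : 0 ≤ D.erase x := by
    intro y
    rw [Finsupp.erase_apply]
    split_ifs
    · exact le_rfl
    · exact hD y
  have h3 := mapDomain_nonneg f h2 (f x)
  have h4 : D.mapDomain f (f x) =
      (Finsupp.single x (D x)).mapDomain f (f x) + (D.erase x).mapDomain f (f x) := by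
    conv_lhs => rw [h1, Finsupp.mapDomain_add]
    rfl
  rw [h4, Finsupp.mapDomain_single, Finsupp.single_eq_same]
  have h5 : (0 : Y →₀ ℤ) (f x) = 0 := rfl
  rw [h5] at h3
  linarith

variable (𝒞) in
/-- The points and divisor classes of a constant curve over algebraically closed fields, with
places as morphisms. -/
structure CurveSys where
  /-- the points over `k` -/
  Pt : 𝒞 → Type u
  /-- specialization of points -/
  sp : ∀ {k k' : 𝒞}, (k ⟶ k') → Pt k → Pt k'
  sp_id : ∀ {k : 𝒞} (x : Pt k), sp (𝟙 k) x = x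
  sp_comp : ∀ {k k' k'' : 𝒞} (φ : k ⟶ k') (ψ : k' ⟶ k'') (x : Pt k),
    sp (φ ≫ ψ) x = sp ψ (sp φ x)
  /-- the principal divisors -/
  Prin : ∀ k : 𝒞, AddSubgroup (Pt k →₀ ℤ)
  sp_prin : ∀ {k k' : 𝒞} (φ : k ⟶ k') {D : Pt k →₀ ℤ}, D ∈ Prin k → D.mapDomain (sp φ) ∈ Prin k'
  deg_prin : ∀ {k : 𝒞} {D : Pt k →₀ ℤ}, D ∈ Prin k → deg D = 0
  /-- the genus -/
  genus : ℤ
  /-- every divisor of degree `≥ g` is equivalent to an effective one -/
  exists_eff : ∀ (k : 𝒞) (D : Pt k →₀ ℤ), genus ≤ deg D →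
    ∃ D' : Pt k →₀ ℤ, 0 ≤ D' ∧ D' - D ∈ Prin k
  /-- a rigid effective divisor -/
  E : ∀ k : 𝒞, Pt k →₀ ℤ
  E_nonneg : ∀ k, 0 ≤ E k
  E_deg : ∀ k, deg (E k) = genus
  sp_E : ∀ {k k' : 𝒞} (φ : k ⟶ k'), (E k).mapDomain (sp φ) = E k'
  E_uniq : ∀ {k : 𝒞} {D : Pt k →₀ ℤ}, 0 ≤ D → D - E k ∈ Prin k → D = E k
  exists_off : ∀ k, ∃ x : Pt k, E k x = 0

namespace CurveSys

variable (S : CurveSys.{u, v, w} 𝒞)

/-- the group of divisor classes -/
abbrev Pic (k : 𝒞) : Type u := (S.Pt k →₀ ℤ) ⧸ S.Prin k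

/-- specialization of divisors -/
def spD {k k' : 𝒞} (φ : k ⟶ k') : (S.Pt k →₀ ℤ) →+ (S.Pt k' →₀ ℤ) :=
  Finsupp.mapDomain.addMonoidHom (S.sp φ)

@[simp]
theorem spD_apply {k k' : 𝒞} (φ : k ⟶ k') (D : S.Pt k →₀ ℤ) :
    S.spD φ D = D.mapDomain (S.sp φ) := rfl

/-- specialization of divisor classes -/
def spP {k k' : 𝒞} (φ : k ⟶ k') : S.Pic k →+ S.Pic k' :=
  QuotientAddGroup.map (S.Prin k) (S.Prin k') (S.spD φ) fun _ hD => S.sp_prin φ hD

@[simp]
theorem spP_mk {k k' : 𝒞} (φ : k ⟶ k') (D : S.Pt k →₀ ℤ) :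
    S.spP φ (QuotientAddGroup.mk D) = QuotientAddGroup.mk (D.mapDomain (S.sp φ)) := rfl

theorem mk_eq_mk {k : 𝒞} {D D' : S.Pt k →₀ ℤ} :
    (QuotientAddGroup.mk D : S.Pic k) = QuotientAddGroup.mk D' ↔ D' - D ∈ S.Prin k := by
  rw [QuotientAddGroup.eq, neg_add_eq_sub]

theorem spP_comp {k k' k'' : 𝒞} (φ : k ⟶ k') (ψ : k' ⟶ k'') (x : S.Pic k) :
    S.spP (φ ≫ ψ) x = S.spP ψ (S.spP φ x) := by
  obtain ⟨D, rfl⟩ := QuotientAddGroup.mk_surjective x
  rw [spP_mk, spP_mk, spP_mk, ← Finsupp.mapDomain_comp]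
  congr 2
  exact funext fun x => S.sp_comp φ ψ x

/-- degree of a class -/
def degP (k : 𝒞) : S.Pic k →+ ℤ :=
  QuotientAddGroup.lift (S.Prin k) deg fun _ hD => S.deg_prin hD

@[simp]
theorem degP_mk {k : 𝒞} (D : S.Pt k →₀ ℤ) : S.degP k (QuotientAddGroup.mk D) = deg D := rfl

theorem degP_spP {k k' : 𝒞} (φ : k ⟶ k') (x : S.Pic k) :
    S.degP k' (S.spP φ x) = S.degP k x := by
  obtain ⟨D, rfl⟩ := QuotientAddGroup.mk_surjective x
  rw [spP_mk, degP_mk, degP_mk, deg_mapDomain]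

/-- The extension `ι : k ⟶ k'` behaves like the passage to the algebraic closure of a function
field of one variable: a point of the curve over `k'` is constant or specializes to everything. -/
def IsGen {k k' : 𝒞} (ι : k ⟶ k') : Prop :=
  ∀ Q : S.Pt k', (∃ Q₀ : S.Pt k, S.sp ι Q₀ = Q) ∨
    ∀ P₀ : S.Pt k, ∃ φ : k' ⟶ k, ι ≫ φ = 𝟙 k ∧ S.sp φ Q = P₀

/-- **Rigidity.** Let `λ` be a class over `F ⊃ F_v ⊃ k` such that `λ` specializes to `0` under
every composite place `F ⟶ F_v ⟶ k` with fixed second part `R₂`, and also under one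
place `ψ : F ⟶ F_v` over `F_v`. Then `λ = 0`. -/
theorem rigid {k Fv F : 𝒞} (ιv : k ⟶ Fv) (ι : Fv ⟶ F) (hι : S.IsGen ι) (R₂ : Fv ⟶ k)
    (hR₂ : ιv ≫ R₂ = 𝟙 k) (lam : S.Pic F)
    (h1 : ∀ φ : F ⟶ Fv, ι ≫ φ = 𝟙 Fv → S.spP (φ ≫ R₂) lam = 0)
    (ψ : F ⟶ Fv) (hψ : ι ≫ ψ = 𝟙 Fv) (h2 : S.spP ψ lam = 0) : lam = 0 := by
  obtain ⟨D₀, rfl⟩ := QuotientAddGroup.mk_surjective lam
  have hdeg : deg D₀ = 0 := by
    have := S.degP_spP ψ (QuotientAddGroup.mk D₀)
    rw [h2, map_zero, degP_mk] at this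
    exact this.symm
  obtain ⟨D, hD0, hD⟩ := S.exists_eff F (D₀ + S.E F) (by rw [map_add, hdeg, S.E_deg, zero_add])
  -- the specialization of `D` is `E`
  have key : ∀ {k' : 𝒞} (φ : F ⟶ k'), S.spP φ (QuotientAddGroup.mk D₀) = 0 →
      D.mapDomain (S.sp φ) = S.E k' := by
    intro k' φ h
    apply S.E_uniq (mapDomain_nonneg _ hD0)
    have e1 := S.sp_prin φ hD
    rw [← spD_apply, map_sub, map_add, spD_apply, spD_apply, spD_apply, S.sp_E] at e1
    have e2 : D₀.mapDomain (S.sp φ) ∈ S.Prin k' := by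
      rw [spP_mk, QuotientAddGroup.eq_zero_iff] at h
      exact h
    have e3 := (S.Prin k').add_mem e1 e2
    have e4 : D.mapDomain (S.sp φ) - (D₀.mapDomain (S.sp φ) + S.E k') +
        D₀.mapDomain (S.sp φ) = D.mapDomain (S.sp φ) - S.E k' := by abel
    rwa [e4] at e3
  -- the points of `D` are defined over `F_v`
  have hpt : ∀ Q : S.Pt F, D Q ≠ 0 → ∃ Q₀ : S.Pt Fv, S.sp ι Q₀ = Q := by
    intro Q hQ
    rcases hι Q with h | h
    · exact h
    exfalso
    obtain ⟨x, hx⟩ := S.exists_off k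
    obtain ⟨φ, hφ, hφQ⟩ := h (S.sp ιv x)
    have e1 := key (φ ≫ R₂) (h1 φ hφ)
    have e2 : S.sp (φ ≫ R₂) Q = x := by
      rw [S.sp_comp, hφQ, ← S.sp_comp, hR₂, S.sp_id]
    have e3 := le_mapDomain_apply (S.sp (φ ≫ R₂)) hD0 Q
    rw [e1, e2, hx] at e3
    have e4 : 0 ≤ D Q := hD0 Q
    exact hQ (le_antisymm e3 e4)
  classical
  have hne : Nonempty (S.Pt Fv) := ⟨(S.exists_off Fv).choose⟩
  let g : S.Pt F → S.Pt Fv := fun Q =>
    if h : ∃ Q₀ : S.Pt Fv, S.sp ι Q₀ = Q then h.choose else hne.some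
  have hg : ∀ Q : S.Pt F, D Q ≠ 0 → S.sp ι (g Q) = Q := by
    intro Q hQ
    have h := hpt Q hQ
    simp only [g, dif_pos h]
    exact h.choose_spec
  set Dv : S.Pt Fv →₀ ℤ := D.mapDomain g with hDv
  have hDDv : Dv.mapDomain (S.sp ι) = D := by
    rw [hDv, ← Finsupp.mapDomain_comp]
    conv_rhs => rw [← Finsupp.mapDomain_id (v := D)]
    apply Finsupp.mapDomain_congr
    intro Q hQ
    exact hg Q (Finsupp.mem_support_iff.mp hQ)
  have hDv2 : D.mapDomain (S.sp ψ) = Dv := by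
    conv_lhs => rw [← hDDv]
    rw [← Finsupp.mapDomain_comp]
    conv_rhs => rw [← Finsupp.mapDomain_id (v := Dv)]
    apply Finsupp.mapDomain_congr
    intro Q _
    show S.sp ψ (S.sp ι Q) = Q
    rw [← S.sp_comp, hψ, S.sp_id]
  have hDE : D = S.E F := by
    rw [← hDDv, ← hDv2, key ψ h2, S.sp_E]
  rw [hDE] at hD
  have e5 : S.E F - (D₀ + S.E F) = -D₀ := by abel
  rw [e5, neg_mem_iff] at hD
  exact (QuotientAddGroup.eq_zero_iff D₀).mpr hD

end CurveSys

variable (𝒞) in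
/-- A covariant functor of points with values in abelian groups. -/
structure PtSys where
  /-- the points -/
  P : 𝒞 → Type u
  [grp : ∀ k, AddCommGroup (P k)]
  /-- functoriality along places -/
  map : ∀ {k k' : 𝒞}, (k ⟶ k') → P k →+ P k'
  map_id : ∀ {k : 𝒞} (x : P k), map (𝟙 k) x = x
  map_comp : ∀ {k k' k'' : 𝒞} (φ : k ⟶ k') (ψ : k' ⟶ k'') (x : P k),
    map (φ ≫ ψ) x = map ψ (map φ x)

attribute [instance] PtSys.grp

variable (A : PtSys.{u, v, w} 𝒞)

/-- A family of subsets of the points that behaves like (the image of) a curve through `0`. -/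
structure CurveIn (S : CurveSys.{u, v, w} 𝒞) where
  /-- the points of the curve -/
  G : ∀ k : 𝒞, Set (A.P k)
  map_mem : ∀ {k k' : 𝒞} (φ : k ⟶ k') {x : A.P k}, x ∈ G k → A.map φ x ∈ G k'
  zero_mem : ∀ k, (0 : A.P k) ∈ G k
  exists_gen : ∀ k : 𝒞, ∃ (k' : 𝒞) (ι : k ⟶ k') (c : A.P k'), S.IsGen ι ∧
    ∀ x ∈ G k, ∃ φ : k' ⟶ k, ι ≫ φ = 𝟙 k ∧ A.map φ c = x

/-- A natural map from points to divisor classes. -/
structure ClassMap (S : CurveSys.{u, v, w} 𝒞) where
  /-- the class -/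
  T : ∀ {k : 𝒞}, A.P k → S.Pic k
  nat : ∀ {k k' : 𝒞} (φ : k ⟶ k') (x : A.P k), S.spP φ (T x) = T (A.map φ x)

variable {A} {S : CurveSys.{u, v, w} 𝒞}

/-- **Theorem of the square on a constant curve.** -/
theorem ClassMap.square (T : ClassMap A S) (C₁ C₂ : CurveIn A S) {k : 𝒞} (a : A.P k)
    {u₀ v₀ : A.P k} (hu : u₀ ∈ C₁.G k) (hv : v₀ ∈ C₂.G k) :
    T.T (a + u₀ + v₀) - T.T (a + u₀) - T.T (a + v₀) + T.T a = 0 := by
  obtain ⟨Fv, ιv, v, -, hv'⟩ := C₂.exists_gen k
  obtain ⟨F, ι, u, hgen, hu'⟩ := C₁.exists_gen Fv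
  obtain ⟨R₂, hR₂, hR₂v⟩ := hv' 0 (C₂.zero_mem k)
  obtain ⟨ψ, hψ, hψu⟩ := hu' 0 (C₁.zero_mem Fv)
  obtain ⟨ρv, hρv, hρvv⟩ := hv' v₀ hv
  obtain ⟨ρ, hρ, hρu⟩ := hu' (A.map ιv u₀) (C₁.map_mem ιv hu)
  set a' : A.P F := A.map ι (A.map ιv a) with ha'
  set v' : A.P F := A.map ι v with hv''
  have hlam : T.T (a' + u + v') - T.T (a' + u) - T.T (a' + v') + T.T a' = 0 := by
    refine S.rigid ιv ι hgen R₂ hR₂ _ (fun φ hφ => ?_) ψ hψ ?_
    · have e1 : A.map (φ ≫ R₂) v' = 0 := by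
        rw [hv'', A.map_comp, ← A.map_comp ι φ, hφ, A.map_id, hR₂v]
      rw [map_add, map_sub, map_sub, T.nat, T.nat, T.nat, T.nat]
      simp only [map_add, e1, add_zero]
      abel
    · have e1 : A.map ψ u = 0 := hψu
      rw [map_add, map_sub, map_sub, T.nat, T.nat, T.nat, T.nat]
      simp only [map_add, e1, add_zero]
      abel
  have h2 := congrArg (S.spP (ρ ≫ ρv)) hlam
  have ea : A.map (ρ ≫ ρv) a' = a := by
    rw [ha', A.map_comp, ← A.map_comp ι ρ, hρ, A.map_id, ← A.map_comp, hρv, A.map_id]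
  have ev : A.map (ρ ≫ ρv) v' = v₀ := by
    rw [hv'', A.map_comp, ← A.map_comp ι ρ, hρ, A.map_id, hρvv]
  have eu : A.map (ρ ≫ ρv) u = u₀ := by
    rw [A.map_comp, hρu, ← A.map_comp, hρv, A.map_id]
  rw [map_add, map_sub, map_sub, T.nat, T.nat, T.nat, T.nat, map_zero] at h2
  simp only [map_add, ea, ev, eu] at h2
  exact h2

/-- The subgroup generated by curves. -/
def Gam {ι : Type*} (C : ι → CurveIn A S) (k : 𝒞) : AddSubgroup (A.P k) :=
  AddSubgroup.closure (⋃ i, (C i).G k)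

/-- **Theorem of the square**, telescoped. -/
theorem ClassMap.square_gam (T : ClassMap A S) {ι : Type*} (C : ι → CurveIn A S) {k : 𝒞}
    (a : A.P k) {y z : A.P k} (hy : y ∈ Gam C k) (hz : z ∈ Gam C k) :
    T.T (a + y + z) - T.T (a + y) - T.T (a + z) + T.T a = 0 := by
  have step : ∀ (p : A.P k → A.P k → Prop), (∀ y z, p y z ↔ ∀ a : A.P k,
      T.T (a + y + z) - T.T (a + y) - T.T (a + z) + T.T a = 0) → p y z := by
    intro p hp
    have hsymm : ∀ y z, p y z → p z y := by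
      intro y z h
      rw [hp] at h ⊢
      intro a
      have := h a
      rw [add_right_comm] at this
      rw [← this]
      abel
    have hadd : ∀ y y' z, p y z → p y' z → p (y + y') z := by
      intro y y' z h h'
      rw [hp] at h h' ⊢
      intro a
      have e1 := h a
      have e2 := h' (a + y)
      have e3 : a + (y + y') = a + y + y' := (add_assoc _ _ _).symm
      rw [e3]
      have : T.T (a + y + y' + z) - T.T (a + y + y') - T.T (a + z) + T.T a =
        (T.T (a + y + y' + z) - T.T (a + y + y') - T.T (a + y + z) + T.T (a + y)) +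
        (T.T (a + y + z) - T.T (a + y) - T.T (a + z) + T.T a) := by abel
      rw [this, e1, e2, add_zero]
    have hzero : ∀ z, p 0 z := by
      intro z
      rw [hp]
      intro a
      rw [add_zero]
      abel
    have hneg : ∀ y z, p y z → p (-y) z := by
      intro y z h
      rw [hp] at h ⊢
      intro a
      have e1 := h (a + -y)
      rw [neg_add_cancel_right] at e1
      have : T.T (a + -y + z) - T.T (a + -y) - T.T (a + z) + T.T a =
        -(T.T (a + z) - T.T a - T.T (a + -y + z) + T.T (a + -y)) := by abel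
      rw [this, e1, neg_zero]
    have h1 : ∀ z, z ∈ (⋃ i, (C i).G k) → ∀ y ∈ Gam C k, p y z := by
      intro z hz y hy
      obtain ⟨j, hj⟩ := Set.mem_iUnion.mp hz
      induction hy using AddSubgroup.closure_induction with
      | mem x hx =>
        obtain ⟨i, hi⟩ := Set.mem_iUnion.mp hx
        rw [hp]
        intro a
        exact T.square (C i) (C j) a hi hj
      | zero => exact hzero z
      | add x x' _ _ ih ih' => exact hadd _ _ _ ih ih'
      | neg x _ ih => exact hneg _ _ ih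
    have h2 : ∀ z ∈ Gam C k, p y z := by
      intro z hz
      apply hsymm
      induction hz using AddSubgroup.closure_induction with
      | mem x hx => exact hsymm _ _ (h1 x hx y hy)
      | zero => exact hzero y
      | add x x' _ _ ih ih' => exact hadd _ _ _ ih ih'
      | neg x _ ih => exact hneg _ _ ih
    exact h2 z hz
  exact (step (fun y z => ∀ a : A.P k,
      T.T (a + y + z) - T.T (a + y) - T.T (a + z) + T.T a = 0) (fun y z => Iff.rfl)) a

end Fermat.Agent.AVB
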